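import Fermat.Agent.ECReduction.Frey
import Fermat.Prelude.Def_FreyPackage_IsConductorLevel
import Fermat.Prelude.Def_FLTPrelim_Modularity

/-!
# The semistable integral model of the Frey curve

`freyCurveInt` is a semistable model of the Frey curve, its bad primes divide `abc`, and a
squarefree number all of whose prime factors are bad is a conductor level
(`isConductorLevel_of_bad_primes`).
-/

set_option autoImplicit false

namespace FLTAgent.Endgame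

variable (P : FreyPackage)

theorem four_mul_a₂ : 4 * P.freyCurveInt.a₂ = P.b ^ P.p - 1 - P.a ^ P.p := by
  obtain ⟨x, hx⟩ := FLTAgent.ECReduction.exists_a₂ P
  show 4 * ((P.b ^ P.p - 1 - P.a ^ P.p) / 4) = _
  rw [← hx, Int.mul_ediv_cancel_left _ (by norm_num : (4 : ℤ) ≠ 0)]

theorem sixteen_mul_a₄ : 16 * P.freyCurveInt.a₄ = -(P.a ^ P.p * P.b ^ P.p) := by
  obtain ⟨x, hx⟩ := FLTAgent.ECReduction.exists_a₄ P
  show 16 * (-(P.a ^ P.p) * (P.b ^ P.p) / 16) = _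
  rw [show -(P.a ^ P.p) * (P.b ^ P.p) = 16 * x by linear_combination -hx,
    Int.mul_ediv_cancel_left _ (by norm_num : (16 : ℤ) ≠ 0)]
  linear_combination hx

theorem freyCurveInt_c₄ :
    P.freyCurveInt.c₄ = (P.c ^ P.p) ^ 2 - P.a ^ P.p * P.b ^ P.p := by
  have h2 := four_mul_a₂ P
  have h4 := sixteen_mul_a₄ P
  have hF := P.hFLT
  simp only [WeierstrassCurve.c₄, WeierstrassCurve.b₂, WeierstrassCurve.b₄,
    show P.freyCurveInt.a₁ = 1 from rfl, show P.freyCurveInt.a₃ = 0 from rfl]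
  rw [← hF]
  linear_combination
    ((4 * P.freyCurveInt.a₂ + 1) + (P.b ^ P.p - P.a ^ P.p)) * h2 - 3 * h4

theorem freyCurveInt_Δ :
    256 * P.freyCurveInt.Δ = (P.a ^ P.p * P.b ^ P.p * P.c ^ P.p) ^ 2 := by
  have h2 := four_mul_a₂ P
  have h4 := sixteen_mul_a₄ P
  have hF := P.hFLT
  have e : P.freyCurveInt.Δ = P.freyCurveInt.a₄ ^ 2 * (P.c ^ P.p) ^ 2 := by
    simp only [WeierstrassCurve.Δ, WeierstrassCurve.b₂, WeierstrassCurve.b₄, WeierstrassCurve.b₆,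
      WeierstrassCurve.b₈, show P.freyCurveInt.a₁ = 1 from rfl,
      show P.freyCurveInt.a₃ = 0 from rfl, show P.freyCurveInt.a₆ = 0 from rfl]
    rw [← hF]
    linear_combination P.freyCurveInt.a₄ ^ 2 *
      ((4 * P.freyCurveInt.a₂ + 1 + (P.b ^ P.p - P.a ^ P.p)) * h2 - 4 * h4)
  rw [e]
  linear_combination (P.c ^ P.p) ^ 2 * (16 * P.freyCurveInt.a₄ - P.a ^ P.p * P.b ^ P.p) * h4

theorem freyCurveInt_Δ_ne_zero : P.freyCurveInt.Δ ≠ 0 := by
  intro h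
  have := freyCurveInt_Δ P
  rw [h, mul_zero] at this
  exact pow_ne_zero 2 (mul_ne_zero (mul_ne_zero (pow_ne_zero _ P.ha0) (pow_ne_zero _ P.hb0))
    (pow_ne_zero _ P.hc0)) this.symm

theorem prime_dvd_abc_of_dvd_Δ {q : ℕ} (hq : q.Prime) (h : (q : ℤ) ∣ P.freyCurveInt.Δ) :
    (q : ℤ) ∣ P.a * P.b * P.c := by
  have h' : (q : ℤ) ∣ ((P.a * P.b * P.c) ^ P.p) ^ 2 := by
    rw [show ((P.a * P.b * P.c) ^ P.p) ^ 2 = (P.a ^ P.p * P.b ^ P.p * P.c ^ P.p) ^ 2 by ring,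
      ← freyCurveInt_Δ]
    exact dvd_mul_of_dvd_right h _
  exact (Nat.prime_iff_prime_int.mp hq).dvd_of_dvd_pow
    ((Nat.prime_iff_prime_int.mp hq).dvd_of_dvd_pow h')

theorem not_dvd_of_gcd_eq_one {x y : ℤ} {q : ℕ} (hq : q.Prime) (h : gcd x y = 1)
    (hx : (q : ℤ) ∣ x) : ¬ (q : ℤ) ∣ y := fun hy => by
  have h1 : (q : ℤ) ∣ 1 := h ▸ dvd_gcd hx hy
  exact (Nat.prime_iff_prime_int.mp hq).not_dvd_one h1

theorem freyCurveInt_isSemistableModel : P.freyCurveInt.IsSemistableModel := by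
  intro q hq hΔ hc4
  have hqp : Prime (q : ℤ) := Nat.prime_iff_prime_int.mp hq
  have hp0 : P.p ≠ 0 := P.hp0
  rw [freyCurveInt_c₄] at hc4
  rcases hqp.dvd_or_dvd (prime_dvd_abc_of_dvd_Δ P hq hΔ) with hab | hc
  · rcases hqp.dvd_or_dvd hab with ha | hb
    · have h1 : (q : ℤ) ∣ (P.c ^ P.p) ^ 2 := by
        simpa using dvd_add hc4 ((dvd_pow ha hp0).mul_right (P.b ^ P.p))
      exact not_dvd_of_gcd_eq_one hq P.hgcdac ha (hqp.dvd_of_dvd_pow (hqp.dvd_of_dvd_pow h1))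
    · have h1 : (q : ℤ) ∣ (P.c ^ P.p) ^ 2 := by
        simpa using dvd_add hc4 ((dvd_pow hb hp0).mul_left (P.a ^ P.p))
      exact not_dvd_of_gcd_eq_one hq P.hgcdbc hb (hqp.dvd_of_dvd_pow (hqp.dvd_of_dvd_pow h1))
  · have h0 : (q : ℤ) ∣ (P.c ^ P.p) ^ 2 := dvd_pow (dvd_pow hc hp0) two_ne_zero
    have h1 : (q : ℤ) ∣ P.a ^ P.p * P.b ^ P.p := by
      simpa using dvd_sub h0 hc4
    rcases hqp.dvd_or_dvd h1 with h | h
    · exact not_dvd_of_gcd_eq_one hq P.hgcdac (hqp.dvd_of_dvd_pow h) hc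
    · exact not_dvd_of_gcd_eq_one hq P.hgcdbc (hqp.dvd_of_dvd_pow h) hc

theorem freyCurveInt_map : P.freyCurveInt.map (Int.castRingHom ℚ) = P.freyCurve := by
  have h2 := congrArg (Int.cast : ℤ → ℚ) (four_mul_a₂ P)
  have h4 := congrArg (Int.cast : ℤ → ℚ) (sixteen_mul_a₄ P)
  push_cast at h2 h4
  ext
  · simp [FreyPackage.freyCurveInt, FreyPackage.freyCurve]
  · show ((P.freyCurveInt.a₂ : ℤ) : ℚ) = P.freyCurve.a₂
    simp only [FreyPackage.freyCurve]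
    linear_combination (1 / 4 : ℚ) * h2
  · simp [FreyPackage.freyCurveInt, FreyPackage.freyCurve]
  · show ((P.freyCurveInt.a₄ : ℤ) : ℚ) = P.freyCurve.a₄
    simp only [FreyPackage.freyCurve]
    linear_combination (1 / 16 : ℚ) * h4
  · simp [FreyPackage.freyCurveInt, FreyPackage.freyCurve]

theorem freyCurveInt_isIntegralModelOf : P.freyCurveInt.IsIntegralModelOf P.freyCurve :=
  ⟨1, by rw [freyCurveInt_map, one_smul]⟩

theorem isConductorLevel_of_bad_primes {N : ℕ} (hN : 0 < N) (hsq : Squarefree N)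
    (h : ∀ q : ℕ, q.Prime → q ∣ N → (q : ℤ) ∣ P.freyCurveInt.Δ) : P.IsConductorLevel N :=
  ⟨hN, hsq, fun q hq hqN => prime_dvd_abc_of_dvd_Δ P hq (h q hq hqN)⟩

end FLTAgent.Endgame
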