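import Mathlib.Data.Nat.Squarefree
import Mathlib.Tactic.NormNum.Prime
import Fermat.Prelude.Def_WeierstrassCurve_Mlc1RowStatement
import Fermat.Prelude.Def_FLTPrelim_ModularRep

/-!
# Modularity of semistable curves from its inputs

From residual modularity at `3` (`ResidualThreeNineFree`), the `3`–`5` switch and lifting, a
semistable curve is modular of its exact conductor level (`exactLevel_of`).
-/

set_option autoImplicit false

open WeierstrassCurve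

namespace FLTAgent.Endgame

/-- Residual modularity at `3` at a level that is cube-free away from `3` and not divisible
by `9`. -/
def ResidualThreeNineFree (W : WeierstrassCurve ℤ) : Prop :=
  ∃ M : ℕ, 0 < M ∧ W.IsResiduallyModularOfLevel 3 M ∧ ¬ 3 ^ 2 ∣ M ∧
    ∀ q : ℕ, q.Prime → q ≠ 3 → ¬ q ^ 3 ∣ M

/-- Lifting, in the shape of S59. -/
abbrev LiftInput : Prop :=
  ∀ (p : ℕ), p = 3 ∨ p = 5 → ∀ (W : WeierstrassCurve ℤ), W.Δ ≠ 0 → W.IsSemistableModel →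
    W.ModRepIsIrreducible p → ∀ (M₀ : ℕ) [NeZero M₀], W.IsResiduallyModularOfLevel p M₀ →
      ¬ p ^ 2 ∣ M₀ → (∀ q : ℕ, q.Prime → q ≠ p → ¬ q ^ 3 ∣ M₀) →
      Mlc1IsModularModelOfExactConductorLevel W

theorem not_sq_dvd_of_squarefree {N q : ℕ} (hN : Squarefree N) (hq : q.Prime) : ¬ q ^ 2 ∣ N :=
  fun h => Nat.squarefree_iff_prime_squarefree.mp hN q hq (by rwa [← pow_two])

/-- Residual modularity at `5` transported along the switch. -/
theorem residual_five_of_switch {W W' : WeierstrassCurve ℤ} {N : ℕ}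
    (hmod : W'.IsModularModelOfLevel N) (hbad : ∀ q : ℕ, q.Prime → (q : ℤ) ∣ W'.Δ → q ∣ N)
    (hcong : ∀ ℓ : ℕ, ℓ.Prime → W.IsGoodPrimeFor ℓ → W'.IsGoodPrimeFor ℓ → ℓ ≠ 5 →
      (5 : ℤ) ∣ (W'.apOfModel ℓ - W.apOfModel ℓ)) :
    W.IsResiduallyModularOfLevel 5 N := by
  obtain ⟨f, hf, hfa⟩ := hmod
  obtain ⟨𝔪, h𝔪, h5⟩ := FLTPrelim.exists_maximalIdeal_natCast_prime_mem (p := 5) (by norm_num)
  refine ⟨f, 𝔪, hf, h𝔪, h5, fun ℓ hℓ hgood hℓN hℓ5 => ?_⟩
  have hgood' : W'.IsGoodPrimeFor ℓ := fun h => hℓN (hbad ℓ hℓ h)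
  refine ⟨((W'.apOfModel ℓ : ℤ) : integralClosure ℤ ℂ), ?_, ?_⟩
  · push_cast
    exact (hfa ℓ hℓ hgood' hℓN).symm
  · rw [← Int.cast_sub]
    obtain ⟨k, hk⟩ := hcong ℓ hℓ hgood hgood' hℓ5
    rw [hk, Int.cast_mul]
    exact 𝔪.mul_mem_right _ (by exact_mod_cast h5)

/-- Semistable curves are modular of their exact conductor level, given residual modularity at
`3`, the irreducibility dichotomy, the switch and lifting. -/
theorem exactLevel_of
    (hdich : ∀ W : WeierstrassCurve ℤ, W.Δ ≠ 0 → W.IsSemistableModel →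
      W.ModRepIsIrreducible 3 ∨ W.ModRepIsIrreducible 5)
    (hswitch : ∀ W : WeierstrassCurve ℤ, W.Δ ≠ 0 → W.IsSemistableModel → W.ModRepIsIrreducible 5 →
      ∃ W' : WeierstrassCurve ℤ, W'.Δ ≠ 0 ∧ W'.IsSemistableModel ∧ W'.ModRepIsIrreducible 3 ∧
        ∀ ℓ : ℕ, ℓ.Prime → W.IsGoodPrimeFor ℓ → W'.IsGoodPrimeFor ℓ → ℓ ≠ 5 →
          (5 : ℤ) ∣ (W'.apOfModel ℓ - W.apOfModel ℓ))
    (hthree : ∀ W : WeierstrassCurve ℤ, W.Δ ≠ 0 → W.IsSemistableModel → W.ModRepIsIrreducible 3 →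
      ResidualThreeNineFree W)
    (hlift : LiftInput)
    (W : WeierstrassCurve ℤ) (hΔ : W.Δ ≠ 0) (hW : W.IsSemistableModel) :
    Mlc1IsModularModelOfExactConductorLevel W := by
  have h3 : ∀ V : WeierstrassCurve ℤ, V.Δ ≠ 0 → V.IsSemistableModel → V.ModRepIsIrreducible 3 →
      Mlc1IsModularModelOfExactConductorLevel V := by
    intro V hVΔ hV hirr
    obtain ⟨M, hM, hres, h9, hcube⟩ := hthree V hVΔ hV hirr
    have : NeZero M := ⟨hM.ne'⟩
    exact hlift 3 (.inl rfl) V hVΔ hV hirr M hres h9 hcube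
  by_cases hirr : W.ModRepIsIrreducible 3
  · exact h3 W hΔ hW hirr
  have h5 := (hdich W hΔ hW).resolve_left hirr
  obtain ⟨W', hΔ', hW', hirr', hcong⟩ := hswitch W hΔ hW h5
  obtain ⟨N, hN, hsq, hsupp, hmod⟩ := h3 W' hΔ' hW' hirr'
  have : NeZero N := ⟨hN.ne'⟩
  refine hlift 5 (.inr rfl) W hΔ hW h5 N
    (residual_five_of_switch hmod (fun q hq h => (hsupp q hq).mpr h) hcong)
    (not_sq_dvd_of_squarefree hsq (by norm_num)) fun q hq _ hq3 =>
      not_sq_dvd_of_squarefree hsq hq ((pow_dvd_pow q (by norm_num : 2 ≤ 3)).trans hq3)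

theorem isModular_map_of_exact {W : WeierstrassCurve ℤ}
    (h : Mlc1IsModularModelOfExactConductorLevel W) :
    (W.map (Int.castRingHom ℚ)).IsModular := by
  obtain ⟨N, hN, -, -, hmod⟩ := h
  exact ⟨W, ⟨1, one_smul _ _⟩, N, hN, hmod⟩

end FLTAgent.Endgame
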