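import Mathlib.NumberTheory.FLT.Three
import Mathlib.NumberTheory.FLT.Four
import Fermat.Prelude.Def_FLTPrelim_Ramification
import Fermat.Agent.Endgame.FreyModel
import Fermat.Agent.Endgame.Semistable

/-!
# The endgame: no Frey package, hence Fermat's Last Theorem

The level of a modular Frey representation is lowered to a divisor of `2`, where there are no
cusp forms of weight two (`false_of_inputs`); the irreducibility, modularity and lowering results
enter as hypotheses, supplied in `Fermat.Agent.S03`.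
-/

set_option autoImplicit false

open WeierstrassCurve WeierstrassCurve.Affine.Point

namespace FLTAgent.Endgame

/-- Lowering away from `p`, in the shape of S43. -/
abbrev LoweringInput : Prop :=
  ∀ (P : FreyPackage) {N q : ℕ}, P.IsConductorLevel N → q.Prime → q ≠ 2 → q ≠ P.p → q ∣ N →
    GaloisRepIsIrreducible (K := AlgebraicClosure ℚ) ℚ P.freyCurve P.p →
    P.ModularRepOfLevel N → P.GaloisRepUnramifiedAt q →
    ∃ M : ℕ, M ∣ N ∧ ¬ q ∣ M ∧ P.ModularRepOfLevel M

/-- Lowering at `p`, in the shape of S44. -/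
abbrev LoweringAtPInput : Prop :=
  ∀ (P : FreyPackage) {N : ℕ}, P.IsConductorLevel N → P.p ∣ N →
    GaloisRepIsIrreducible (K := AlgebraicClosure ℚ) ℚ P.freyCurve P.p →
    P.ModularRepOfLevel N → ∃ M : ℕ, M ∣ N ∧ ¬ P.p ∣ M ∧ P.ModularRepOfLevel M

variable (P : FreyPackage)

theorem freyCurve_isModular
    (h : Mlc1IsModularModelOfExactConductorLevel P.freyCurveInt) : P.freyCurve.IsModular :=
  freyCurveInt_map P ▸ isModular_map_of_exact h

theorem exists_conductor_modularRep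
    (h : Mlc1IsModularModelOfExactConductorLevel P.freyCurveInt) :
    ∃ N : ℕ, P.IsConductorLevel N ∧ P.ModularRepOfLevel N := by
  obtain ⟨N, hN, hsq, hsupp, f, hf, hfa⟩ := h
  obtain ⟨𝔪, h𝔪, hp⟩ := FLTPrelim.exists_maximalIdeal_natCast_prime_mem P.pp
  refine ⟨N, isConductorLevel_of_bad_primes P hN hsq fun q hq hqN => (hsupp q hq).mp hqN,
    f, P.freyCurveInt, 𝔪, hf, freyCurveInt_isIntegralModelOf P, h𝔪, hp,
    fun ℓ hℓ hgood hℓN _ => ⟨((P.freyCurveInt.apOfModel ℓ : ℤ) : integralClosure ℤ ℂ), ?_, ?_⟩⟩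
  · push_cast
    exact (hfa ℓ hℓ hgood hℓN).symm
  · rw [sub_self]
    exact 𝔪.zero_mem

/-- Lowering the level: only the prime `2` can remain. -/
theorem exists_dvd_two_modularRep
    (hirr : GaloisRepIsIrreducible (K := AlgebraicClosure ℚ) ℚ P.freyCurve P.p)
    (hunr : ∀ {q : ℕ}, q.Prime → q ≠ 2 → q ≠ P.p → P.GaloisRepUnramifiedAt q)
    (hlow : LoweringInput) (hlowp : LoweringAtPInput) :
    ∀ N : ℕ, P.IsConductorLevel N → P.ModularRepOfLevel N →
      ∃ M : ℕ, M ∣ 2 ∧ P.ModularRepOfLevel M := by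
  intro N
  induction N using Nat.strong_induction_on with
  | _ N ih =>
    intro hN hmod
    by_cases hex : ∃ q : ℕ, q.Prime ∧ q ∣ N ∧ q ≠ 2
    · obtain ⟨q, hq, hqN, hq2⟩ := hex
      obtain ⟨M, hMN, hqM, hM⟩ : ∃ M : ℕ, M ∣ N ∧ ¬ q ∣ M ∧ P.ModularRepOfLevel M := by
        rcases eq_or_ne q P.p with rfl | hqp
        · exact hlowp P hN hqN hirr hmod
        · exact hlow P hN hq hq2 hqp hqN hirr hmod (hunr hq hq2 hqp)
      have hM0 : 0 < M := Nat.pos_of_dvd_of_pos hMN hN.pos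
      have hlt : M < N := lt_of_le_of_ne (Nat.le_of_dvd hN.pos hMN) fun h => hqM (h ▸ hqN)
      exact ih M hlt (hN.of_dvd hMN hM0) hM
    · push Not at hex
      refine ⟨N, ?_, hmod⟩
      rw [← Nat.prod_primeFactors_of_squarefree hN.squarefree]
      have hsub : N.primeFactors ⊆ {2} := fun q hq => by
        rw [Nat.mem_primeFactors] at hq
        exact Finset.mem_singleton.mpr (hex q hq.1 hq.2.1)
      simpa using Finset.prod_dvd_prod_of_subset _ _ (fun q : ℕ => q) hsub

/-- No Frey package, given the inputs. -/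
theorem false_of_inputs
    (hirr : GaloisRepIsIrreducible (K := AlgebraicClosure ℚ) ℚ P.freyCurve P.p)
    (hunr : ∀ {q : ℕ}, q.Prime → q ≠ 2 → q ≠ P.p → P.GaloisRepUnramifiedAt q)
    (hlow : LoweringInput) (hlowp : LoweringAtPInput)
    (hcond : ∃ N : ℕ, P.IsConductorLevel N ∧ P.ModularRepOfLevel N)
    (h2 : ∀ f : CuspForm (CongruenceSubgroup.Gamma0 2) 2, f = 0)
    (h1 : ∀ f : CuspForm (CongruenceSubgroup.Gamma0 1) 2, f = 0) : False := by
  obtain ⟨N, hN, hmod⟩ := hcond
  obtain ⟨M, hM, f, W, 𝔪, hf, -⟩ :=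
    exists_dvd_two_modularRep P hirr hunr hlow hlowp N hN hmod
  rcases (Nat.dvd_prime Nat.prime_two).mp hM with rfl | rfl
  · exact hf.ne_zero (h1 f)
  · exact hf.ne_zero (h2 f)

/-- Fermat's Last Theorem from the non-existence of Frey packages. -/
theorem flt_of_no_freyPackage
    (hpkg : ∀ (a b c : ℤ), a ≠ 0 → b ≠ 0 → c ≠ 0 → ∀ (p : ℕ), p.Prime → 5 ≤ p →
      a ^ p + b ^ p = c ^ p → Nonempty FreyPackage)
    (hno : FreyPackage → False) (n : ℕ) (hn : 3 ≤ n) (a b c : ℕ) (ha : 0 < a) (hb : 0 < b)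
    (hc : 0 < c) : a ^ n + b ^ n ≠ c ^ n := by
  refine (FermatLastTheorem.of_odd_primes fun p hp hodd => ?_) n hn a b c ha.ne' hb.ne' hc.ne'
  rcases eq_or_ne p 3 with rfl | hp3
  · exact fermatLastTheoremThree
  have hp5 : 5 ≤ p := by
    have h2 := hp.two_le
    obtain ⟨k, hk⟩ := hodd
    omega
  intro a b c ha hb hc H
  obtain ⟨P⟩ := hpkg a b c (by exact_mod_cast ha) (by exact_mod_cast hb) (by exact_mod_cast hc) p hp
    hp5 (by exact_mod_cast H)
  exact hno P

end FLTAgent.Endgame
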