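import Fermat.Agent.S51
import Fermat.Agent.S52
import Fermat.Agent.Endgame.Frey
import Fermat.Agent.LocalThree.DetLine
import Fermat.Agent.SemistableHecke.NewformStrict

/-!
# Modularity of semistable curves from residual modularity at 3 and lifting

`exactLevel` runs the `3`–`5` switch (S51, S52) on residual modularity at `3` with the `9` removed
from the level. Its two deep inputs, S50 and S59, are parameters, supplied by the statement files
S04, S06 and S60; S03 and S01 are assembled in their statement files from `false_of_inputs` and
`flt_of_no_freyPackage`.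
-/

set_option autoImplicit false

open WeierstrassCurve WeierstrassCurve.Affine WeierstrassCurve.Affine.Point
open scoped WeierstrassCurve.Affine

namespace FLTAgent.Endgame

open FLTAgent.LocalThree (newformDetLine_of_strict threeInput_of)

/-- Residual modularity at `3` at some level, in the shape of S50. -/
abbrev ResidualThreeInput : Prop :=
  ∀ W : WeierstrassCurve ℤ, W.Δ ≠ 0 → W.IsSemistableModel → W.ModRepIsIrreducible 3 →
    ∃ M : ℕ, 0 < M ∧ W.IsResiduallyModularOfLevel 3 M ∧
    (∀ q : ℕ, q.Prime → q ≠ 3 → ¬ q ^ 3 ∣ M) ∧
    (3 ^ 2 ∣ M →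
      ∀ A : ValuationSubring (AlgebraicClosure ℚ), A.LiesOverPrime 3 →
        ∀ x : Submodule.torsionBy ℤ
            ((W.map (Int.castRingHom ℚ))⁄(AlgebraicClosure ℚ)).Point (3 : ℕ),
          (∀ σ ∈ A.inertiaSubgroupIn ℚ, σ • x = x) → x = 0)

/-- A semistable curve is modular of its exact conductor level. -/
theorem exactLevel (h50 : ResidualThreeInput) (h59 : LiftInput)
    (W : WeierstrassCurve ℤ) (hΔ : W.Δ ≠ 0) (hW : W.IsSemistableModel) :
    Mlc1IsModularModelOfExactConductorLevel W :=
  exactLevel_of Fermat.Agent.S51.result Fermat.Agent.S52.result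
    (threeInput_of (newformDetLine_of_strict SemistableHecke.newformStrictInput) h50)
    h59 W hΔ hW

/-- The integral model of a Frey curve is modular of its exact conductor level. -/
theorem freyExactLevel (h50 : ResidualThreeInput) (h59 : LiftInput) (P : FreyPackage) :
    Mlc1IsModularModelOfExactConductorLevel P.freyCurveInt :=
  exactLevel h50 h59 _ (freyCurveInt_Δ_ne_zero P) (freyCurveInt_isSemistableModel P)

end FLTAgent.Endgame
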